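/-
The image of the local Galois group in `Gal(ℚ̄/ℚ)` (helper10).  For a prime `q` the Prelude's
`localGaloisToGlobal q : Gal(PadicAlgCl q / ℚ_q) →* Gal(ℚ̄/ℚ)` (restriction along
`padicEmbedding q`) is continuous and its image is EXACTLY the decomposition group of
`padicPlace q` (`range_localGaloisToGlobal`).

Method: the image is compact, hence a closed subgroup `H`; its fixed field consists of the `x` with
`padicEmbedding q x ∈ ℚ_q`; every element of the decomposition group fixes such an `x` (it preserves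
the `q`-adic norm on `ℚ̄` and `ℚ` is dense in `ℚ_q`); Galois correspondence for closed subgroups.
-/
import Mathlib
import Fermat.Prelude.Def_GaloisRep_CompletionBridge
import Fermat.Agent.Lib.Frobenius.Basic

set_option autoImplicit false

namespace Fermat.Agent.LocalGalois

open Fermat.Agent.FrobExists
open scoped NNReal Pointwise

attribute [local instance] isAlgebraic_Qb isAlgClosure_Qb

variable (q : ℕ) [Fact q.Prime]

/-- `localGaloisToGlobal q τ` fixes `x` iff `τ` fixes `padicEmbedding q x`. -/
theorem lg_apply_eq_iff (τ : PadicAlgCl q ≃ₐ[ℚ_[q]] PadicAlgCl q) (x : Qb) :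
    localGaloisToGlobal q τ x = x ↔ τ (padicEmbedding q x) = padicEmbedding q x := by
  rw [← padicEmbedding_localGaloisToGlobal]
  exact ⟨fun h => by rw [h], fun h => (padicEmbedding q).toRingHom.injective h⟩

/-- The restriction map from the local Galois group is continuous. -/
theorem continuous_localGaloisToGlobal : Continuous (localGaloisToGlobal q) := by
  refine continuous_of_continuousAt_one (localGaloisToGlobal q) ?_
  rw [ContinuousAt, map_one]
  intro s hs
  obtain ⟨E, hE, hEs⟩ := (krullTopology_mem_nhds_one_iff ℚ Qb s).mp hs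
  rw [Filter.mem_map]
  classical
  set b := Module.finBasis ℚ E with hb
  let T : Finset (PadicAlgCl q) :=
    Finset.univ.image (fun i => padicEmbedding q ((b i : E) : Qb))
  have hfd : FiniteDimensional ℚ_[q]
      (IntermediateField.adjoin ℚ_[q] (T : Set (PadicAlgCl q))) := by
    have : Finite (T : Set (PadicAlgCl q)) := (Finset.finite_toSet T).to_subtype
    exact IntermediateField.finiteDimensional_adjoin
      (fun x _ => Algebra.IsIntegral.isIntegral x)
  refine (krullTopology_mem_nhds_one_iff ℚ_[q] (PadicAlgCl q) _).mpr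
    ⟨IntermediateField.adjoin ℚ_[q] (T : Set (PadicAlgCl q)), hfd, ?_⟩
  intro τ hτ
  rw [Set.mem_preimage]
  apply hEs
  rw [SetLike.mem_coe, IntermediateField.mem_fixingSubgroup_iff] at hτ ⊢
  have hfix : ∀ i, localGaloisToGlobal q τ ((b i : E) : Qb) = ((b i : E) : Qb) := by
    intro i
    rw [lg_apply_eq_iff]
    apply hτ
    apply IntermediateField.subset_adjoin
    exact Finset.mem_coe.2 (Finset.mem_image.2 ⟨i, Finset.mem_univ i, rfl⟩)
  intro x hx
  have hx' : x = ∑ i, b.repr ⟨x, hx⟩ i • ((b i : E) : Qb) := by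
    have h0 : ((∑ i, b.repr ⟨x, hx⟩ i • b i : E) : Qb) = x :=
      congrArg Subtype.val (b.sum_repr ⟨x, hx⟩)
    rw [IntermediateField.coe_sum] at h0
    exact h0.symm
  rw [hx', map_sum]
  refine Finset.sum_congr rfl (fun i _ => ?_)
  rw [map_rat_smul, hfix]

/-- The image of the local Galois group is closed. -/
theorem isClosed_range_localGaloisToGlobal :
    IsClosed ((localGaloisToGlobal q).range : Set GQ) := by
  have h : ((localGaloisToGlobal q).range : Set GQ) = Set.range (localGaloisToGlobal q) :=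
    MonoidHom.coe_range _
  rw [h]
  exact (isCompact_range (continuous_localGaloisToGlobal q)).isClosed

/-- The norm of `q ^ n` in `PadicAlgCl q`. -/
theorem norm_padicEmbedding_pow (n : ℕ) :
    ‖padicEmbedding q ((q : Qb) ^ n)‖ = ((q : ℝ) ^ n)⁻¹ := by
  rw [map_pow, map_natCast, norm_pow]
  have h1 : ((q : ℕ) : PadicAlgCl q) = algebraMap ℚ_[q] (PadicAlgCl q) (q : ℚ_[q]) := by
    rw [map_natCast]
  rw [h1, PadicAlgCl.norm_extends, Padic.norm_p, inv_pow]

/-- Membership in `padicPlace q` after scaling by a power of `q`. -/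
theorem norm_le_pow_iff (x : Qb) (n : ℕ) :
    ‖padicEmbedding q x‖ ≤ ((q : ℝ) ^ n)⁻¹ ↔ x * ((q : Qb) ^ n)⁻¹ ∈ padicPlace q := by
  have hq0 : (0 : ℝ) < (q : ℝ) ^ n := pow_pos (Nat.cast_pos.2 (Fact.out : q.Prime).pos) n
  rw [mem_padicPlace_iff, ← NNReal.coe_le_coe, coe_nnnorm, NNReal.coe_one, map_mul, map_inv₀,
    norm_mul, norm_inv, norm_padicEmbedding_pow, inv_inv, inv_eq_one_div, le_div_iff₀ hq0]

/-- An element of the decomposition group preserves `padicPlace q`. -/
theorem apply_mem_padicPlace {σ : GQ} (hσ : σ ∈ (padicPlace q).decompositionSubgroup ℚ)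
    {x : Qb} (hx : x ∈ padicPlace q) : σ x ∈ padicPlace q := by
  have h1 : σ • padicPlace q = padicPlace q := MulAction.mem_stabilizer_iff.mp hσ
  have h2 : σ • x ∈ σ • padicPlace q := ValuationSubring.smul_mem_pointwise_smul σ x _ hx
  rw [h1] at h2
  exact h2

/-- The decomposition group preserves the balls of radius `q ^ (-n)`. -/
theorem norm_apply_le {σ : GQ} (hσ : σ ∈ (padicPlace q).decompositionSubgroup ℚ) (x : Qb) (n : ℕ)
    (hx : ‖padicEmbedding q x‖ ≤ ((q : ℝ) ^ n)⁻¹) :
    ‖padicEmbedding q (σ x)‖ ≤ ((q : ℝ) ^ n)⁻¹ := by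
  rw [norm_le_pow_iff] at hx ⊢
  have h := apply_mem_padicPlace q hσ hx
  rwa [map_mul, map_inv₀, map_pow, map_natCast] at h

/-- The decomposition group fixes the elements of `ℚ̄` which lie in `ℚ_q`. -/
theorem apply_eq_of_mem_range {σ : GQ} (hσ : σ ∈ (padicPlace q).decompositionSubgroup ℚ)
    (x : Qb) (y : ℚ_[q]) (hxy : padicEmbedding q x = algebraMap ℚ_[q] (PadicAlgCl q) y) :
    σ x = x := by
  by_contra hne
  have hd : padicEmbedding q (σ x - x) ≠ 0 := by
    intro h0
    have h1 : σ x - x = 0 := (padicEmbedding q).toRingHom.injective (h0.trans (map_zero _).symm)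
    exact hne (sub_eq_zero.mp h1)
  have hδ : 0 < ‖padicEmbedding q (σ x - x)‖ := norm_pos_iff.mpr hd
  have hq1 : (1 : ℝ) < q := by exact_mod_cast (Fact.out : q.Prime).one_lt
  obtain ⟨n, hn⟩ := exists_pow_lt_of_lt_one (half_pos hδ)
    (inv_lt_one_of_one_lt₀ hq1)
  rw [inv_pow] at hn
  have hq0 : (0 : ℝ) < ((q : ℝ) ^ n)⁻¹ := by positivity
  obtain ⟨a, ha⟩ := Padic.rat_dense q y hq0
  have h1 : ‖padicEmbedding q (x - (a : Qb))‖ ≤ ((q : ℝ) ^ n)⁻¹ := by
    have e : padicEmbedding q (x - (a : Qb)) = algebraMap ℚ_[q] (PadicAlgCl q) (y - (a : ℚ_[q])) := by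
      rw [map_sub, map_sub, hxy, map_ratCast, map_ratCast]
    rw [e, PadicAlgCl.norm_extends]
    exact ha.le
  have h2 := norm_apply_le q hσ _ n h1
  rw [map_sub, map_ratCast] at h2
  have e : padicEmbedding q (σ x - x) =
      padicEmbedding q (σ x - (a : Qb)) - padicEmbedding q (x - (a : Qb)) := by
    rw [← map_sub]; congr 1; ring
  have h3 : ‖padicEmbedding q (σ x - x)‖ ≤ ((q : ℝ) ^ n)⁻¹ + ((q : ℝ) ^ n)⁻¹ := by
    rw [e]
    exact (norm_sub_le _ _).trans (add_le_add h2 h1)
  linarith

/-- **The image of the local Galois group is the decomposition group.** -/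
theorem range_localGaloisToGlobal :
    (localGaloisToGlobal q).range = (padicPlace q).decompositionSubgroup ℚ := by
  apply le_antisymm
  · rintro _ ⟨τ, rfl⟩
    exact localGaloisToGlobal_mem_decompositionSubgroup q τ
  · let H : ClosedSubgroup GQ :=
      { toSubgroup := (localGaloisToGlobal q).range
        isClosed' := isClosed_range_localGaloisToGlobal q }
    have hH : (IntermediateField.fixedField (H : Subgroup GQ)).fixingSubgroup = H :=
      InfiniteGalois.fixingSubgroup_fixedField H
    intro σ hσ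
    have hmem : σ ∈ (IntermediateField.fixedField (H : Subgroup GQ)).fixingSubgroup := by
      rw [IntermediateField.mem_fixingSubgroup_iff]
      intro x hx
      have hfix : ∀ τ : PadicAlgCl q ≃ₐ[ℚ_[q]] PadicAlgCl q,
          τ (padicEmbedding q x) = padicEmbedding q x := by
        intro τ
        rw [← lg_apply_eq_iff]
        exact hx ⟨localGaloisToGlobal q τ, ⟨τ, rfl⟩⟩
      have hbot : padicEmbedding q x ∈ (⊥ : IntermediateField ℚ_[q] (PadicAlgCl q)) :=
        (InfiniteGalois.mem_bot_iff_fixed _).mpr hfix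
      obtain ⟨y, hy⟩ := IntermediateField.mem_bot.mp hbot
      exact apply_eq_of_mem_range q hσ x y hy.symm
    rw [hH] at hmem
    exact hmem

end Fermat.Agent.LocalGalois
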